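import Fermat.Agent.S51.MW.Local

/-!
# S51 / MW / Even: for a point `(x, y)`, `y ≠ 0`, all valuations of `x` are even

FROZEN INTERFACE: the statements below must not change.
-/

set_option autoImplicit false

namespace Fermat.Agent.S51.MW

private theorem even_val_81 (p : ℕ) [Fact p.Prime] (h3 : p ≠ 3) :
    padicValRat p (81 : ℚ) = 0 := by
  have h : (81 : ℚ) = ((3 ^ 4 : ℕ) : ℚ) := by norm_num
  rw [h, padicValRat.of_nat, padicValNat_prime_prime_pow 4 h3]
  rfl

private theorem even_val3_pow (k : ℕ) : padicValRat 3 ((3 : ℚ) ^ k) = k := by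
  have h : ((3 : ℚ) ^ k) = ((3 ^ k : ℕ) : ℚ) := by push_cast; rfl
  rw [h, padicValRat.of_nat, padicValNat.prime_pow]

private theorem even_val3_81 : padicValRat 3 (81 : ℚ) = 4 := by
  have h : (81 : ℚ) = (3 : ℚ) ^ 4 := by norm_num
  rw [h, even_val3_pow]
  rfl

/-- The core 3-adic contradiction: `v₃(x) = v₃(y) = v₃(x - 81) = v₃(c)` with `c ∣ 81` properly. -/
private theorem even_aux {x y c d : ℚ} (hx0 : x ≠ 0) (hx81 : x - 81 ≠ 0) (hy0 : y ≠ 0)
    (hc0 : c ≠ 0) (h : y ^ 2 = cub x) (hcd : c * d = 81)
    (hx : padicValRat 3 x = padicValRat 3 c) (hy : padicValRat 3 y = padicValRat 3 c)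
    (hx' : padicValRat 3 (x - 81) = padicValRat 3 c)
    (hc : 1 ≤ padicValRat 3 c) (hd : 1 ≤ padicValRat 3 d) : False := by
  have hu0 : x / c ≠ 0 := div_ne_zero hx0 hc0
  have hw0 : y / c ≠ 0 := div_ne_zero hy0 hc0
  have hu : padicValRat 3 (x / c) = 0 := by rw [padicValRat.div hx0 hc0]; omega
  have hw : padicValRat 3 (y / c) = 0 := by rw [padicValRat.div hy0 hc0]; omega
  have key := three_unit_sq_add_sq hw0 hu0 hw hu
  have hid : (y / c) ^ 2 + (x / c) ^ 2 = (x / c) * (x * (x - 81) / c + d) := by
    have hd' : d = 81 / c := by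
      rw [eq_div_iff hc0]; linarith
    rw [hd']
    unfold cub at h
    field_simp
    linear_combination h
  have hne : (y / c) ^ 2 + (x / c) ^ 2 ≠ 0 := by positivity
  rw [hid] at key hne
  have hne2 : x * (x - 81) / c + d ≠ 0 := right_ne_zero_of_mul hne
  rw [padicValRat.mul hu0 hne2, hu, zero_add] at key
  have h1 : padicValRat 3 (x * (x - 81) / c) = padicValRat 3 c := by
    rw [padicValRat.div (mul_ne_zero hx0 hx81) hc0, padicValRat.mul hx0 hx81]; omega
  have h2 := padicValRat.min_le_padicValRat_add (p := 3) hne2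
  rw [h1, key] at h2
  omega

theorem OnE.even_val {x : ℚ} (hx : OnE x) (p : ℕ) (hp : p.Prime) : Even (padicValRat p x) := by
  have : Fact p.Prime := ⟨hp⟩
  have hx0 := hx.ne_zero
  have hx1 := hx.sub_one_ne_zero
  have hx81 := hx.sub_ne_zero
  obtain ⟨y, hy0, h⟩ := hx
  have hv : 2 * padicValRat p y = padicValRat p x + padicValRat p (x - 1)
      + padicValRat p (x - 81) := by
    have h' := congrArg (padicValRat p) h
    rw [padicValRat.pow, cub, padicValRat.mul (mul_ne_zero hx0 hx1) hx81,
      padicValRat.mul hx0 hx1] at h'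
    exact_mod_cast h'
  have hm1 : padicValRat p (-1 : ℚ) = 0 := by rw [padicValRat.neg, padicValRat.one]
  rcases lt_trichotomy (padicValRat p x) 0 with hneg | hzero | hpos
  · -- negative valuation
    have e1 : padicValRat p (x - 1) = padicValRat p x := by
      have hne : x + (-1 : ℚ) ≠ 0 := by rwa [← sub_eq_add_neg]
      have := padicValRat.add_eq_of_lt (p := p) hne hx0 (by norm_num) (by rw [hm1]; exact hneg)
      rwa [← sub_eq_add_neg] at this
    have h81 : 0 ≤ padicValRat p (-81 : ℚ) := by
      rw [padicValRat.neg]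
      have : (81 : ℚ) = ((81 : ℕ) : ℚ) := by norm_num
      rw [this]
      exact zero_le_padicValRat_of_nat 81
    have e2 : padicValRat p (x - 81) = padicValRat p x := by
      have hne : x + (-81 : ℚ) ≠ 0 := by rwa [← sub_eq_add_neg]
      have := padicValRat.add_eq_of_lt (p := p) hne hx0 (by norm_num) (lt_of_lt_of_le hneg h81)
      rwa [← sub_eq_add_neg] at this
    rw [e1, e2] at hv
    rw [Int.even_iff]
    omega
  · rw [hzero]; exact Even.zero
  · have e1 : padicValRat p (x - 1) = 0 := by
      have hne : (-1 : ℚ) + x ≠ 0 := by rwa [neg_add_eq_sub]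
      have := padicValRat.add_eq_of_lt (p := p) hne (by norm_num) hx0 (by rw [hm1]; exact hpos)
      rwa [neg_add_eq_sub, hm1] at this
    rw [e1] at hv
    by_cases h3 : p = 3
    · subst h3
      have hm81 : padicValRat 3 (-81 : ℚ) = 4 := by rw [padicValRat.neg, even_val3_81]
      rcases lt_trichotomy (padicValRat 3 x) 4 with hlt | heq | hgt
      · -- `0 < v(x) < 4`: contradiction
        exfalso
        have e2 : padicValRat 3 (x - 81) = padicValRat 3 x := by
          have hne : x + (-81 : ℚ) ≠ 0 := by rwa [← sub_eq_add_neg]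
          have := padicValRat.add_eq_of_lt (p := 3) hne hx0 (by norm_num)
            (by rw [hm81]; exact hlt)
          rwa [← sub_eq_add_neg] at this
        rw [e2] at hv
        have hvy : padicValRat 3 y = padicValRat 3 x := by omega
        obtain ⟨k, hk⟩ := Int.eq_ofNat_of_zero_le hpos.le
        have hk4 : k < 4 := by omega
        have hk1 : 1 ≤ k := by omega
        have hc : padicValRat 3 ((3 : ℚ) ^ k) = padicValRat 3 x := by rw [even_val3_pow, hk]
        have hd : padicValRat 3 ((3 : ℚ) ^ (4 - k)) = ((4 - k : ℕ) : ℤ) := even_val3_pow _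
        refine even_aux (c := (3 : ℚ) ^ k) (d := (3 : ℚ) ^ (4 - k)) hx0 hx81 hy0
          (by positivity) h ?_ hc.symm (hvy.trans hc.symm) (e2.trans hc.symm) ?_ ?_
        · rw [← pow_add]
          have : k + (4 - k) = 4 := by omega
          rw [this]; norm_num
        · rw [hc]; omega
        · rw [hd]; omega
      · rw [heq]; decide
      · have e2 : padicValRat 3 (x - 81) = 4 := by
          have hne : (-81 : ℚ) + x ≠ 0 := by rwa [neg_add_eq_sub]
          have := padicValRat.add_eq_of_lt (p := 3) hne (by norm_num) hx0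
            (by rw [hm81]; exact hgt)
          rwa [neg_add_eq_sub, hm81] at this
        rw [e2] at hv
        rw [Int.even_iff]
        omega
    · have hm81 : padicValRat p (-81 : ℚ) = 0 := by rw [padicValRat.neg, even_val_81 p h3]
      have e2 : padicValRat p (x - 81) = 0 := by
        have hne : (-81 : ℚ) + x ≠ 0 := by rwa [neg_add_eq_sub]
        have := padicValRat.add_eq_of_lt (p := p) hne (by norm_num) hx0
          (by rw [hm81]; exact hpos)
        rwa [neg_add_eq_sub, hm81] at this
      rw [e2] at hv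
      rw [Int.even_iff]
      omega

end Fermat.Agent.S51.MW
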