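import Fermat.Agent.S51.MW.Local

/-!
# S51 / MW / EvenSub: for a point `(x, y)`, `y ≠ 0`, with `x` a square, all valuations of `x - 1`
at primes `p ≠ 5` are even

FROZEN INTERFACE: the statements below must not change.
-/

set_option autoImplicit false

namespace Fermat.Agent.S51.MW

private theorem evs_val_two_80 : padicValRat 2 (80 : ℚ) = 4 := by
  have h : (80 : ℚ) = ((2 ^ 4 * 5 : ℕ) : ℚ) := by norm_num
  rw [h, padicValRat.of_nat, padicValNat.mul (by norm_num) (by norm_num),
    padicValNat.prime_pow, padicValNat.eq_zero_of_not_dvd (by decide)]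
  norm_num

private theorem evs_val_two_8 : padicValRat 2 (8 : ℚ) = 3 := by
  have h : (8 : ℚ) = ((2 ^ 3 : ℕ) : ℚ) := by norm_num
  rw [h, padicValRat.of_nat, padicValNat.prime_pow]
  norm_num

private theorem evs_val_two_5 : padicValRat 2 (5 : ℚ) = 0 := by
  have h : (5 : ℚ) = ((5 : ℕ) : ℚ) := by norm_num
  rw [h, padicValRat.of_nat, padicValNat.eq_zero_of_not_dvd (by decide)]
  norm_num

private theorem evs_val_80 {p : ℕ} (hp : p.Prime) (hp2 : p ≠ 2) (hp5 : p ≠ 5) :
    padicValRat p (80 : ℚ) = 0 := by
  have : Fact p.Prime := ⟨hp⟩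
  have h : (80 : ℚ) = ((2 ^ 4 * 5 : ℕ) : ℚ) := by norm_num
  have hnd : ¬ p ∣ 2 ^ 4 * 5 := by
    intro hd
    rcases (Nat.Prime.dvd_mul hp).mp hd with h1 | h1
    · exact hp2 ((Nat.prime_dvd_prime_iff_eq hp Nat.prime_two).mp (hp.dvd_of_dvd_pow h1))
    · exact hp5 ((Nat.prime_dvd_prime_iff_eq hp Nat.prime_five).mp h1)
  rw [h, padicValRat.of_nat, padicValNat.eq_zero_of_not_dvd hnd]
  norm_num

theorem OnE.even_val_sub_one {x : ℚ} (hx : OnE x) (r : ℚ) (hr : x = r ^ 2) (p : ℕ)
    (hp : p.Prime) (hp5 : p ≠ 5) : Even (padicValRat p (x - 1)) := by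
  have : Fact p.Prime := ⟨hp⟩
  have hx0 : x ≠ 0 := hx.ne_zero
  have hx1 : x - 1 ≠ 0 := hx.sub_one_ne_zero
  have hx81 : x - 81 ≠ 0 := hx.sub_ne_zero
  have hr0 : r ≠ 0 := by
    intro h; apply hx0; rw [hr, h]; norm_num
  obtain ⟨y, hy0, hy⟩ := hx
  have hw0 : y / r ≠ 0 := div_ne_zero hy0 hr0
  have hw : (y / r) ^ 2 = (x - 1) * (x - 81) := by
    rw [div_pow, hy, ← hr]
    unfold cub
    field_simp
  have hsum : padicValRat p (x - 1) + padicValRat p (x - 81) = 2 * padicValRat p (y / r) := by
    rw [← padicValRat.mul hx1 hx81, ← hw, padicValRat.pow]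
    norm_num
  have hvx : padicValRat p x = 2 * padicValRat p r := by
    rw [hr, padicValRat.pow]; norm_num
  have hv1 : padicValRat p (1 : ℚ) = 0 := padicValRat.one
  rcases lt_trichotomy (padicValRat p (x - 1)) 0 with hneg | hzero | hpos
  · -- negative valuation
    have h1 : padicValRat p ((x - 1) + 1) = padicValRat p (x - 1) :=
      padicValRat.add_eq_of_lt (by simpa using hx0) hx1 one_ne_zero (by rw [hv1]; exact hneg)
    rw [sub_add_cancel] at h1
    rw [← h1, hvx]
    exact even_two_mul _
  · rw [hzero]; exact Even.zero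
  · -- positive valuation
    by_cases hp2 : p = 2
    · subst hp2
      have h1 : padicValRat 2 (1 + (x - 1)) = padicValRat 2 (1 : ℚ) :=
        padicValRat.add_eq_of_lt (by simpa using hx0) one_ne_zero hx1 (by rw [hv1]; exact hpos)
      rw [add_sub_cancel, hv1, hvx] at h1
      have hvr : padicValRat 2 r = 0 := by omega
      have h3 : 3 ≤ padicValRat 2 (r ^ 2 - 1) :=
        two_unit_sq_sub_one hr0 hvr (by
          intro h; apply hx1; rw [hr, h]; norm_num)
      rw [← hr] at h3
      have hv80 : padicValRat 2 (-80 : ℚ) = 4 := by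
        rw [padicValRat.neg]; exact evs_val_two_80
      have hsplit : x - 81 = (x - 1) + (-80) := by ring
      rcases lt_trichotomy (padicValRat 2 (x - 1)) 4 with hlt | heq | hgt
      · -- valuation exactly 3: contradiction
        exfalso
        have hv3 : padicValRat 2 (x - 1) = 3 := by omega
        have h81 : padicValRat 2 (x - 81) = 3 := by
          rw [hsplit, padicValRat.add_eq_of_lt (by rw [← hsplit]; exact hx81) hx1 (by norm_num)
            (by rw [hv80]; exact hlt), hv3]
        have hvw : padicValRat 2 (y / r) = 3 := by omega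
        have hs0 : y / r / 8 ≠ 0 := div_ne_zero hw0 (by norm_num)
        have hvs : padicValRat 2 (y / r / 8) = 0 := by
          rw [padicValRat.div hw0 (by norm_num), hvw, evs_val_two_8]; norm_num
        have hkey : ((x - 1) / 8 - 5) ^ 2 = (y / r / 8) ^ 2 + 5 ^ 2 := by
          rw [div_pow (y / r), hw]; ring
        have h5 := two_unit_sq_add_sq hs0 (by norm_num : (5 : ℚ) ≠ 0) hvs evs_val_two_5
        rw [← hkey, padicValRat.pow] at h5
        push_cast at h5
        omega
      · rw [heq]; exact ⟨2, by norm_num⟩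
      · have h81 : padicValRat 2 (x - 81) = 4 := by
          rw [hsplit, add_comm, padicValRat.add_eq_of_lt
            (by rw [add_comm, ← hsplit]; exact hx81) (by norm_num) hx1
            (by rw [hv80]; exact hgt), hv80]
        exact ⟨padicValRat 2 (y / r) - 2, by omega⟩
    · have hv80 : padicValRat p (-80 : ℚ) = 0 := by
        rw [padicValRat.neg]; exact evs_val_80 hp hp2 hp5
      have hsplit : x - 81 = (-80) + (x - 1) := by ring
      have h81 : padicValRat p (x - 81) = 0 := by
        rw [hsplit, padicValRat.add_eq_of_lt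
          (by rw [← hsplit]; exact hx81) (by norm_num) hx1
          (by rw [hv80]; exact hpos), hv80]
      rw [h81, add_zero] at hsum
      rw [hsum]
      exact even_two_mul _

end Fermat.Agent.S51.MW
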