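import Fermat.Agent.S51.MW.Defs

/-!
# S51 / MW / Halve: translation by 2-torsion to the class `(1,1,1)` and halving

FROZEN INTERFACE: the statements below must not change.
-/

set_option autoImplicit false

namespace Fermat.Agent.S51.MW

private theorem hlv_onE_of_sq {x s1 s2 s3 : ℚ} (h1 : x = s1 ^ 2) (h2 : x - 1 = s2 ^ 2)
    (h3 : x - 81 = s3 ^ 2) (n1 : s1 ≠ 0) (n2 : s2 ≠ 0) (n3 : s3 ≠ 0) : OnE x := by
  refine ⟨s1 * s2 * s3, mul_ne_zero (mul_ne_zero n1 n2) n3, ?_⟩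
  unfold cub
  rw [h2, h3]
  rw [h1]
  ring

private theorem hlv_dbl_inv {x : ℚ} (n1 : x ≠ 0) (n2 : x - 1 ≠ 0) (n3 : x - 81 ≠ 0) :
    dbl (81 / x) = dbl x := by
  have m2 : 81 - x ≠ 0 := fun h => n3 (by linear_combination -h)
  have m3 : 1 - x ≠ 0 := fun h => n2 (by linear_combination -h)
  unfold dbl cub
  have e2 : (81 / x - 1 : ℚ) = (81 - x) / x := by field_simp
  have e3 : (81 / x - 81 : ℚ) = 81 * (1 - x) / x := by field_simp
  have e1 : ((81 / x) ^ 2 - 81 : ℚ) = 81 * (81 - x ^ 2) / x ^ 2 := by field_simp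
  rw [e1, e2, e3]
  have m4 : (x - 1) * (x - 81) ≠ 0 := mul_ne_zero n2 n3
  field_simp
  ring

private theorem hlv_dbl_five {x : ℚ} (n1 : x ≠ 0) (n2 : x - 1 ≠ 0) (n3 : x - 81 ≠ 0) :
    dbl (81 * (x - 1) / (x - 81)) = dbl x := by
  unfold dbl cub
  have e2 : (81 * (x - 1) / (x - 81) - 1 : ℚ) = 80 * x / (x - 81) := by field_simp; ring
  have e3 : (81 * (x - 1) / (x - 81) - 81 : ℚ) = 81 * 80 / (x - 81) := by field_simp; ring
  have e1 : ((81 * (x - 1) / (x - 81)) ^ 2 - 81 : ℚ)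
      = 81 * (81 * (x - 1) ^ 2 - (x - 81) ^ 2) / (x - 81) ^ 2 := by field_simp
  rw [e1, e2, e3]
  field_simp
  ring

private theorem hlv_dbl_neg_five {x : ℚ} (n1 : x ≠ 0) (n2 : x - 1 ≠ 0) (n3 : x - 81 ≠ 0) :
    dbl ((x - 81) / (x - 1)) = dbl x := by
  unfold dbl cub
  have e2 : ((x - 81) / (x - 1) - 1 : ℚ) = -80 / (x - 1) := by field_simp; ring
  have e3 : ((x - 81) / (x - 1) - 81 : ℚ) = -80 * x / (x - 1) := by field_simp; ring
  have e1 : (((x - 81) / (x - 1)) ^ 2 - 81 : ℚ)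
      = ((x - 81) ^ 2 - 81 * (x - 1) ^ 2) / (x - 1) ^ 2 := by field_simp
  rw [e1, e2, e3]
  field_simp
  ring

/-- Halving: if `x`, `x - 1`, `x - 81` are squares then `x = dbl x₁` with `OnE x₁`
(`x₁ = (r₁+r₂)(r₁+r₃)`). -/
theorem OnE.halve_of_squares {x : ℚ} (hx : OnE x) (r1 r2 r3 : ℚ) (h1 : x = r1 ^ 2)
    (h2 : x - 1 = r2 ^ 2) (h3 : x - 81 = r3 ^ 2) : ∃ x₁ : ℚ, OnE x₁ ∧ dbl x₁ = x := by
  have e2 : r2 ^ 2 = r1 ^ 2 - 1 := by rw [← h2, h1]
  have e3 : r3 ^ 2 = r1 ^ 2 - 81 := by rw [← h3, h1]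
  have n12 : r1 + r2 ≠ 0 := by
    intro h
    have : (r1 + r2) * (r1 - r2) = 1 := by linear_combination -e2
    rw [h, zero_mul] at this
    exact zero_ne_one this
  have n13 : r1 + r3 ≠ 0 := by
    intro h
    have : (r1 + r3) * (r1 - r3) = 81 := by linear_combination -e3
    rw [h, zero_mul] at this
    norm_num at this
  have n23 : r2 + r3 ≠ 0 := by
    intro h
    have : (r2 + r3) * (r2 - r3) = 80 := by linear_combination e2 - e3
    rw [h, zero_mul] at this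
    norm_num at this
  have hy : (r1 + r2) * (r1 + r3) * (r2 + r3) ≠ 0 := mul_ne_zero (mul_ne_zero n12 n13) n23
  have hc : cub ((r1 + r2) * (r1 + r3)) = ((r1 + r2) * (r1 + r3) * (r2 + r3)) ^ 2 := by
    unfold cub
    have a2 : (r1 + r2) * (r1 + r3) - 1 = (r2 + r1) * (r2 + r3) := by linear_combination -e2
    have a3 : (r1 + r2) * (r1 + r3) - 81 = (r3 + r1) * (r3 + r2) := by linear_combination -e3
    rw [a2, a3]
    ring
  have hk : ((r1 + r2) * (r1 + r3)) ^ 2 - 81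
      = 2 * r1 * ((r1 + r2) * (r1 + r3) * (r2 + r3)) := by
    linear_combination (r3 ^ 2 - r1 ^ 2) * e2 - e3
  refine ⟨(r1 + r2) * (r1 + r3), ⟨_, hy, hc.symm⟩, ?_⟩
  unfold dbl
  rw [hc, hk, h1]
  field_simp
  ring

/-- Translation by a 2-torsion point: `81/x`, `81(x-1)/(x-81)`, `(x-81)/(x-1)` moves the classes
`d = -1, 5, -5` to the class `(1,1,1)` without changing `dbl`. -/
theorem OnE.translate {x : ℚ} (hx : OnE x) (r1 r2 r3 d : ℚ)
    (hd : d = 1 ∨ d = -1 ∨ d = 5 ∨ d = -5) (h1 : x = r1 ^ 2) (h2 : x - 1 = d * r2 ^ 2)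
    (h3 : x - 81 = d * r3 ^ 2) :
    ∃ x' s1 s2 s3 : ℚ, OnE x' ∧ dbl x' = dbl x ∧ x' = s1 ^ 2 ∧ x' - 1 = s2 ^ 2 ∧
      x' - 81 = s3 ^ 2 := by
  have n1 : x ≠ 0 := hx.ne_zero
  have n2 : x - 1 ≠ 0 := hx.sub_one_ne_zero
  have n3 : x - 81 ≠ 0 := hx.sub_ne_zero
  have hr1 : r1 ≠ 0 := by
    intro h; apply n1; rw [h1, h]; ring
  have hr2 : r2 ≠ 0 := by
    intro h; apply n2; rw [h2, h]; ring
  have hr3 : r3 ≠ 0 := by
    intro h; apply n3; rw [h3, h]; ring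
  rcases hd with rfl | rfl | rfl | rfl
  · rw [one_mul] at h2 h3
    exact ⟨x, r1, r2, r3, hx, rfl, h1, h2, h3⟩
  · have a1 : (81 / x : ℚ) = (9 / r1) ^ 2 := by
      rw [h1]; field_simp; norm_num
    have a2 : (81 / x - 1 : ℚ) = (r3 / r1) ^ 2 := by
      have : (81 / x - 1 : ℚ) = -(x - 81) / x := by field_simp; ring
      rw [this, h3, h1]; field_simp
    have a3 : (81 / x - 81 : ℚ) = (9 * r2 / r1) ^ 2 := by
      have : (81 / x - 81 : ℚ) = -81 * (x - 1) / x := by field_simp; ring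
      rw [this, h2, h1]; field_simp; ring
    exact ⟨81 / x, 9 / r1, r3 / r1, 9 * r2 / r1,
      hlv_onE_of_sq a1 a2 a3 (div_ne_zero (by norm_num) hr1) (div_ne_zero hr3 hr1)
        (div_ne_zero (mul_ne_zero (by norm_num) hr2) hr1),
      hlv_dbl_inv n1 n2 n3, a1, a2, a3⟩
  · have a1 : (81 * (x - 1) / (x - 81) : ℚ) = (9 * r2 / r3) ^ 2 := by
      rw [h2, h3]; field_simp; ring
    have a2 : (81 * (x - 1) / (x - 81) - 1 : ℚ) = (4 * r1 / r3) ^ 2 := by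
      have : (81 * (x - 1) / (x - 81) - 1 : ℚ) = 80 * x / (x - 81) := by field_simp; ring
      rw [this, h3, h1]; field_simp; ring
    have a3 : (81 * (x - 1) / (x - 81) - 81 : ℚ) = (36 / r3) ^ 2 := by
      have : (81 * (x - 1) / (x - 81) - 81 : ℚ) = 81 * 80 / (x - 81) := by field_simp; ring
      rw [this, h3]; field_simp; ring
    exact ⟨81 * (x - 1) / (x - 81), 9 * r2 / r3, 4 * r1 / r3, 36 / r3,
      hlv_onE_of_sq a1 a2 a3 (div_ne_zero (mul_ne_zero (by norm_num) hr2) hr3)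
        (div_ne_zero (mul_ne_zero (by norm_num) hr1) hr3) (div_ne_zero (by norm_num) hr3),
      hlv_dbl_five n1 n2 n3, a1, a2, a3⟩
  · have a1 : ((x - 81) / (x - 1) : ℚ) = (r3 / r2) ^ 2 := by
      rw [h2, h3]; field_simp
    have a2 : ((x - 81) / (x - 1) - 1 : ℚ) = (4 / r2) ^ 2 := by
      have : ((x - 81) / (x - 1) - 1 : ℚ) = -80 / (x - 1) := by field_simp; ring
      rw [this, h2]; field_simp; ring
    have a3 : ((x - 81) / (x - 1) - 81 : ℚ) = (4 * r1 / r2) ^ 2 := by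
      have : ((x - 81) / (x - 1) - 81 : ℚ) = -80 * x / (x - 1) := by field_simp; ring
      rw [this, h2, h1]; field_simp; ring
    exact ⟨(x - 81) / (x - 1), r3 / r2, 4 / r2, 4 * r1 / r2,
      hlv_onE_of_sq a1 a2 a3 (div_ne_zero hr3 hr2) (div_ne_zero (by norm_num) hr2)
        (div_ne_zero (mul_ne_zero (by norm_num) hr1) hr2),
      hlv_dbl_neg_five n1 n2 n3, a1, a2, a3⟩

/-- Every point is, up to 2-torsion, the double of a point. -/
theorem OnE.halve {x : ℚ} (hx : OnE x) (r1 r2 r3 d : ℚ)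
    (hd : d = 1 ∨ d = -1 ∨ d = 5 ∨ d = -5) (h1 : x = r1 ^ 2) (h2 : x - 1 = d * r2 ^ 2)
    (h3 : x - 81 = d * r3 ^ 2) : ∃ x₁ : ℚ, OnE x₁ ∧ dbl (dbl x₁) = dbl x := by
  obtain ⟨x', s1, s2, s3, hx', hd', e1, e2, e3⟩ := hx.translate r1 r2 r3 d hd h1 h2 h3
  obtain ⟨x₁, hx₁, hx₁'⟩ := hx'.halve_of_squares s1 s2 s3 e1 e2 e3
  exact ⟨x₁, hx₁, by rw [hx₁', hd']⟩

end Fermat.Agent.S51.MW
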