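import Fermat.Agent.S51.MW.Defs

/-!
# S51 / MW / TwoAdic: the 2-adic valuation of `dbl z` when `z` is not a 2-adic unit

FROZEN INTERFACE: the statements below must not change.
-/

set_option autoImplicit false

namespace Fermat.Agent.S51.MW

/-- If `v q < v r` and `q ≠ 0` then `q + r ≠ 0` and `v (q + r) = v q`. -/
private theorem tad_add_of_lt {q r : ℚ} (hq : q ≠ 0)
    (h : padicValRat 2 q < padicValRat 2 r) :
    q + r ≠ 0 ∧ padicValRat 2 (q + r) = padicValRat 2 q := by
  by_cases hr : r = 0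
  · subst hr
    simp [hq]
  have hqr : q + r ≠ 0 := by
    intro h0
    have : r = -q := by linarith
    rw [this, padicValRat.neg] at h
    exact lt_irrefl _ h
  exact ⟨hqr, padicValRat.add_eq_of_lt hqr hq hr h⟩

private theorem tad_val_81 : padicValRat 2 (81 : ℚ) = 0 := by
  have h : ((81 : ℕ) : ℚ) = 81 := by norm_num
  rw [← h, padicValRat.of_nat]
  exact_mod_cast padicValNat.eq_zero_of_not_dvd (by norm_num)

private theorem tad_val_neg_81 : padicValRat 2 (-81 : ℚ) = 0 := by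
  rw [padicValRat.neg, tad_val_81]

private theorem tad_val_neg_one : padicValRat 2 (-1 : ℚ) = 0 := by
  rw [padicValRat.neg, padicValRat.one]

private theorem tad_val_four : padicValRat 2 (4 : ℚ) = 2 := by
  have h : (4 : ℚ) = ((2 : ℕ) : ℚ) ^ 2 := by norm_num
  rw [h, padicValRat.pow, padicValRat.self (by norm_num)]
  norm_num

private theorem tad_ne_zero_of_val {z : ℚ} (hz : padicValRat 2 z ≠ 0) : z ≠ 0 := by
  rintro rfl
  simp at hz

theorem val_dbl_of_neg {z : ℚ} (hz : padicValRat 2 z < 0) :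
    padicValRat 2 (dbl z) = padicValRat 2 z - 2 := by
  have hz0 : z ≠ 0 := tad_ne_zero_of_val hz.ne
  have hz2 : z ^ 2 ≠ 0 := pow_ne_zero _ hz0
  have hv2 : padicValRat 2 (z ^ 2) = 2 * padicValRat 2 z := by
    rw [padicValRat.pow]; norm_num
  obtain ⟨hA0, hA⟩ := tad_add_of_lt (q := z ^ 2) (r := -81) hz2
    (by rw [hv2, tad_val_neg_81]; linarith)
  obtain ⟨hB0, hB⟩ := tad_add_of_lt (q := z) (r := -1) hz0
    (by rw [tad_val_neg_one]; exact hz)
  obtain ⟨hC0, hC⟩ := tad_add_of_lt (q := z) (r := -81) hz0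
    (by rw [tad_val_neg_81]; exact hz)
  have e : dbl z = (z ^ 2 + -81) ^ 2 / (4 * (z * (z + -1) * (z + -81))) := by
    unfold dbl cub; ring_nf
  rw [e, padicValRat.div (pow_ne_zero _ hA0)
      (mul_ne_zero (by norm_num) (mul_ne_zero (mul_ne_zero hz0 hB0) hC0)),
    padicValRat.pow, padicValRat.mul (by norm_num) (mul_ne_zero (mul_ne_zero hz0 hB0) hC0),
    padicValRat.mul (mul_ne_zero hz0 hB0) hC0, padicValRat.mul hz0 hB0,
    hA, hB, hC, hv2, tad_val_four]
  push_cast
  ring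

theorem val_dbl_of_pos {z : ℚ} (hz : 0 < padicValRat 2 z) :
    padicValRat 2 (dbl z) = -2 - padicValRat 2 z := by
  have hz0 : z ≠ 0 := tad_ne_zero_of_val hz.ne'
  have hv2 : padicValRat 2 (z ^ 2) = 2 * padicValRat 2 z := by
    rw [padicValRat.pow]; norm_num
  obtain ⟨hA0, hA⟩ := tad_add_of_lt (q := -81) (r := z ^ 2) (by norm_num)
    (by rw [hv2, tad_val_neg_81]; linarith)
  obtain ⟨hB0, hB⟩ := tad_add_of_lt (q := -1) (r := z) (by norm_num)
    (by rw [tad_val_neg_one]; exact hz)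
  obtain ⟨hC0, hC⟩ := tad_add_of_lt (q := -81) (r := z) (by norm_num)
    (by rw [tad_val_neg_81]; exact hz)
  have e : dbl z = (-81 + z ^ 2) ^ 2 / (4 * (z * (-1 + z) * (-81 + z))) := by
    unfold dbl cub; ring_nf
  rw [e, padicValRat.div (pow_ne_zero _ hA0)
      (mul_ne_zero (by norm_num) (mul_ne_zero (mul_ne_zero hz0 hB0) hC0)),
    padicValRat.pow, padicValRat.mul (by norm_num) (mul_ne_zero (mul_ne_zero hz0 hB0) hC0),
    padicValRat.mul (mul_ne_zero hz0 hB0) hC0, padicValRat.mul hz0 hB0,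
    hA, hB, hC, tad_val_neg_81, tad_val_neg_one, tad_val_four]
  push_cast
  ring

end Fermat.Agent.S51.MW
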