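import Fermat.Agent.S51.MW.Local

/-!
# S51 / MW / TwoAdicUnit: the 2-adic valuation of `dbl x` when `x` is a square and a 2-adic unit

FROZEN INTERFACE: the statements below must not change.
-/

set_option autoImplicit false

namespace Fermat.Agent.S51.MW

private theorem tau_v2 : padicValRat 2 (2 : ℚ) = 1 := by
  have h := padicValRat.self (p := 2) (by norm_num)
  exact_mod_cast h

private theorem tau_v5 : padicValRat 2 (5 : ℚ) = 0 := by
  have h : ((5 : ℕ) : ℚ) = 5 := by norm_num
  rw [← h, padicValRat.of_nat, padicValNat.eq_zero_of_not_dvd (by norm_num)]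
  rfl

private theorem tau_v4 : padicValRat 2 (4 : ℚ) = 2 := by
  have h : (4 : ℚ) = 2 ^ 2 := by norm_num
  rw [h, padicValRat.pow, tau_v2]
  norm_num

private theorem tau_v8 : padicValRat 2 (8 : ℚ) = 3 := by
  have h : (8 : ℚ) = 2 ^ 3 := by norm_num
  rw [h, padicValRat.pow, tau_v2]
  norm_num

private theorem tau_v16 : padicValRat 2 (16 : ℚ) = 4 := by
  have h : (16 : ℚ) = 2 ^ 4 := by norm_num
  rw [h, padicValRat.pow, tau_v2]
  norm_num

private theorem tau_v10 : padicValRat 2 (10 : ℚ) = 1 := by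
  have h : (10 : ℚ) = 2 * 5 := by norm_num
  rw [h, padicValRat.mul (by norm_num) (by norm_num), tau_v2, tau_v5]
  norm_num

private theorem tau_v80 : padicValRat 2 (80 : ℚ) = 4 := by
  have h : (80 : ℚ) = 16 * 5 := by norm_num
  rw [h, padicValRat.mul (by norm_num) (by norm_num), tau_v16, tau_v5]
  norm_num

/-- If `x = r²` is a 2-adic unit (and `cub x ≠ 0`, `x ≠ 9`), then `padicValRat 2 (dbl x) ≠ 0`:
with `β = v₂(x-1) ≥ 3` one has `v₂(dbl x) ≥ 2` if `β = 3`, `≤ -3` if `β = 4`, `= 2 - β` if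
`β ≥ 5`. -/
theorem val_dbl_ne_zero_of_unit_sq {x r : ℚ} (hr : x = r ^ 2) (h0 : padicValRat 2 x = 0)
    (hc : cub x ≠ 0) (h9 : x ≠ 9) : padicValRat 2 (dbl x) ≠ 0 := by
  have hx0 : x ≠ 0 := by
    intro h; apply hc; simp [cub, h]
  have hx1 : x - 1 ≠ 0 := by
    intro h; apply hc; simp [cub, h]
  have hx81 : x - 81 ≠ 0 := by
    intro h; apply hc; simp [cub, h]
  have hr0 : r ≠ 0 := by
    intro h; apply hx0; rw [hr, h]; norm_num
  have hvr : padicValRat 2 r = 0 := by
    have h := padicValRat.pow (p := 2) r (k := 2)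
    rw [← hr, h0] at h
    push_cast at h
    omega
  have hβ : 3 ≤ padicValRat 2 (x - 1) := by
    rw [hr]
    refine two_unit_sq_sub_one hr0 hvr ?_
    rw [← hr]
    intro h; apply hx1; rw [h]; ring
  have hxm9 : x - 9 ≠ 0 := sub_ne_zero.mpr h9
  have hxp9 : x + 9 ≠ 0 := by
    have h : 0 ≤ x := by rw [hr]; positivity
    intro h'; linarith
  -- `v(x + 9) = 1`
  have hv9 : padicValRat 2 (x + 9) = 1 := by
    have e : x + 9 = 10 + (x - 1) := by ring
    rw [e, padicValRat.add_eq_of_lt (by rw [← e]; exact hxp9) (by norm_num) hx1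
      (by rw [tau_v10]; omega), tau_v10]
  -- the valuation of `dbl x`
  have hdbl : padicValRat 2 (dbl x) = 2 * padicValRat 2 (x - 9) + 2 * padicValRat 2 (x + 9) - 2
      - padicValRat 2 (x - 1) - padicValRat 2 (x - 81) := by
    have e : dbl x = ((x - 9) ^ 2 * (x + 9) ^ 2) / (4 * (x * (x - 1) * (x - 81))) := by
      unfold dbl cub; ring
    have h4 : (4 : ℚ) ≠ 0 := by norm_num
    rw [e, padicValRat.div (mul_ne_zero (pow_ne_zero 2 hxm9) (pow_ne_zero 2 hxp9))
        (mul_ne_zero h4 (mul_ne_zero (mul_ne_zero hx0 hx1) hx81)),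
      padicValRat.mul (pow_ne_zero 2 hxm9) (pow_ne_zero 2 hxp9),
      padicValRat.mul h4 (mul_ne_zero (mul_ne_zero hx0 hx1) hx81),
      padicValRat.mul (mul_ne_zero hx0 hx1) hx81, padicValRat.mul hx0 hx1,
      padicValRat.pow, padicValRat.pow, tau_v4, h0]
    push_cast
    ring
  have hv8 : padicValRat 2 (-8 : ℚ) = 3 := by rw [padicValRat.neg, tau_v8]
  have hv80 : padicValRat 2 (-80 : ℚ) = 4 := by rw [padicValRat.neg, tau_v80]
  have e9 : x - 9 = -8 + (x - 1) := by ring
  have e81 : x - 81 = -80 + (x - 1) := by ring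
  rcases lt_trichotomy (padicValRat 2 (x - 1)) 4 with hlt | heq | hgt
  · -- `β = 3`
    have hβ3 : padicValRat 2 (x - 1) = 3 := by omega
    have hv81 : padicValRat 2 (x - 81) = 3 := by
      have e : x - 81 = (x - 1) + (-80) := by ring
      rw [e, padicValRat.add_eq_of_lt (by rw [← e]; exact hx81) hx1 (by norm_num)
        (by rw [hv80]; omega), hβ3]
    have hu0 : (x - 1) / 8 ≠ 0 := div_ne_zero hx1 (by norm_num)
    have hvu : padicValRat 2 ((x - 1) / 8) = 0 := by
      rw [padicValRat.div hx1 (by norm_num), hβ3, tau_v8]; norm_num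
    have hu1 : (x - 1) / 8 ≠ 1 := by
      intro h; apply hxm9
      have : x - 1 = 8 := by field_simp at h; linarith
      linarith
    have hsub := two_unit_sub hu0 one_ne_zero hvu padicValRat.one hu1
    have e : x - 9 = 8 * ((x - 1) / 8 - 1) := by ring
    have hv : padicValRat 2 (x - 9) = 3 + padicValRat 2 ((x - 1) / 8 - 1) := by
      conv_lhs => rw [e]
      rw [padicValRat.mul (by norm_num) (sub_ne_zero.mpr hu1), tau_v8]
    omega
  · -- `β = 4`
    have hv9' : padicValRat 2 (x - 9) = 3 := by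
      rw [e9, padicValRat.add_eq_of_lt (by rw [← e9]; exact hxm9) (by norm_num) hx1
        (by rw [hv8]; omega), hv8]
    have hu0 : (x - 1) / 16 ≠ 0 := div_ne_zero hx1 (by norm_num)
    have hvu : padicValRat 2 ((x - 1) / 16) = 0 := by
      rw [padicValRat.div hx1 (by norm_num), heq, tau_v16]; norm_num
    have hu5 : (x - 1) / 16 ≠ 5 := by
      intro h; apply hx81
      have : x - 1 = 80 := by field_simp at h; linarith
      linarith
    have hsub := two_unit_sub hu0 (by norm_num : (5 : ℚ) ≠ 0) hvu tau_v5 hu5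
    have e : x - 81 = 16 * ((x - 1) / 16 - 5) := by ring
    have hv : padicValRat 2 (x - 81) = 4 + padicValRat 2 ((x - 1) / 16 - 5) := by
      conv_lhs => rw [e]
      rw [padicValRat.mul (by norm_num) (sub_ne_zero.mpr hu5), tau_v16]
    omega
  · -- `β ≥ 5`
    have hv9' : padicValRat 2 (x - 9) = 3 := by
      rw [e9, padicValRat.add_eq_of_lt (by rw [← e9]; exact hxm9) (by norm_num) hx1
        (by rw [hv8]; omega), hv8]
    have hv81 : padicValRat 2 (x - 81) = 4 := by
      rw [e81, padicValRat.add_eq_of_lt (by rw [← e81]; exact hx81) (by norm_num) hx1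
        (by rw [hv80]; omega), hv80]
    omega

end Fermat.Agent.S51.MW
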