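import Fermat.Agent.S51.MW.Square
import Fermat.Agent.S51.MW.Even
import Fermat.Agent.S51.MW.EvenSub
import Fermat.Agent.S51.MW.Halve
import Fermat.Agent.S51.MW.TwoAdic
import Fermat.Agent.S51.MW.TwoAdicUnit

/-!
# S51 / MW / Main: `y² = x(x-1)(x-81)` has no rational point with `y ≠ 0` (owner: helper10)

Infinite descent with the 2-adic valuation of `dbl (dbl x)`.
-/

set_option autoImplicit false

namespace Fermat.Agent.S51.MW

theorem OnE.exists_sq {x : ℚ} (hx : OnE x) : ∃ r : ℚ, x = r ^ 2 :=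
  exists_sq_of_pos_of_even_val hx.pos (fun p hp => hx.even_val p hp)

theorem OnE.classes {x : ℚ} (hx : OnE x) :
    ∃ r1 r2 r3 d : ℚ, (d = 1 ∨ d = -1 ∨ d = 5 ∨ d = -5) ∧ x = r1 ^ 2 ∧ x - 1 = d * r2 ^ 2 ∧
      x - 81 = d * r3 ^ 2 := by
  obtain ⟨r1, h1⟩ := hx.exists_sq
  obtain ⟨d, r2, hd, h2⟩ := exists_class_of_even_val hx.sub_one_ne_zero
    (fun p hp hp5 => hx.even_val_sub_one r1 h1 p hp hp5)
  obtain ⟨y, hy, hy2⟩ := id hx
  have hr1 : r1 ≠ 0 := by
    rintro rfl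
    exact hx.ne_zero (by simpa using h1)
  have hd0 : d ≠ 0 := by
    rcases hd with rfl | rfl | rfl | rfl <;> norm_num
  have hr2 : r2 ≠ 0 := by
    rintro rfl
    exact hx.sub_one_ne_zero (by simpa using h2)
  refine ⟨r1, r2, y / (r1 * d * r2), d, hd, h1, h2, ?_⟩
  have hc : y ^ 2 = r1 ^ 2 * (d * r2 ^ 2) * (x - 81) := by
    rw [hy2, cub, ← h1, ← h2]
  field_simp
  linear_combination -hc

theorem OnE.exists_halve {x : ℚ} (hx : OnE x) : ∃ x₁ : ℚ, OnE x₁ ∧ dbl (dbl x₁) = dbl x := by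
  obtain ⟨r1, r2, r3, d, hd, h1, h2, h3⟩ := hx.classes
  exact hx.halve r1 r2 r3 d hd h1 h2 h3

theorem OnE.val_dbl_ne_zero {x : ℚ} (hx : OnE x) : padicValRat 2 (dbl x) ≠ 0 := by
  rcases lt_trichotomy (padicValRat 2 x) 0 with h | h | h
  · rw [val_dbl_of_neg h]; omega
  · obtain ⟨r, hr⟩ := hx.exists_sq
    refine val_dbl_ne_zero_of_unit_sq hr h hx.cub_ne_zero ?_
    rintro rfl
    have := hx.cub_pos
    norm_num [cub] at this
  · rw [val_dbl_of_pos h]; omega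

theorem OnE.val_dbl_dbl_neg {x : ℚ} (hx : OnE x) : padicValRat 2 (dbl (dbl x)) < 0 := by
  have h1 := hx.val_dbl_ne_zero
  rcases lt_or_gt_of_ne h1 with h | h
  · rw [val_dbl_of_neg h]; omega
  · rw [val_dbl_of_pos h]; omega

theorem OnE.val_dbl_dbl_lt (n : ℕ) :
    ∀ x : ℚ, OnE x → padicValRat 2 (dbl (dbl x)) < -2 * (n : ℤ) := by
  induction n with
  | zero =>
    intro x hx
    simpa using hx.val_dbl_dbl_neg
  | succ n ih =>
    intro x hx
    obtain ⟨x₁, hx₁, h⟩ := hx.exists_halve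
    have h1 := ih x₁ hx₁
    have h2 : padicValRat 2 (dbl (dbl x₁)) < 0 := hx₁.val_dbl_dbl_neg
    rw [← h, val_dbl_of_neg h2]
    push_cast
    omega

/-- There is no rational point with `y ≠ 0` on `y² = x(x-1)(x-81)`. -/
theorem not_OnE (x : ℚ) : ¬ OnE x := by
  intro hx
  have := OnE.val_dbl_dbl_lt (padicValRat 2 (dbl (dbl x))).natAbs x hx
  omega

/-- **Mordell–Weil for `y² = x(x-1)(x-81)`** (the curve 15a2): all rational points have `y = 0`. -/
theorem eq_zero_of_sq_eq_cub (x y : ℚ) (h : y ^ 2 = x * (x - 1) * (x - 81)) : y = 0 := by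
  by_contra hy
  exact not_OnE x ⟨y, hy, h⟩

end Fermat.Agent.S51.MW
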