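import Mathlib

/-!
# S51 / MW: definitions for the descent on `y² = x(x-1)(x-81)` (owner: helper10)

`cub x = x(x-1)(x-81)`; `dbl x = (x²-81)²/(4 cub x)` is the x-coordinate of `2P` when `x = x(P)`;
`OnE x` says that `x` is the x-coordinate of a rational point with `y ≠ 0`.
The goal of the `MW` directory is `¬ OnE x` for all `x` (file `Main.lean`).
-/

set_option autoImplicit false

namespace Fermat.Agent.S51.MW

/-- The cubic `x(x-1)(x-81)`. -/
def cub (x : ℚ) : ℚ := x * (x - 1) * (x - 81)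

/-- The x-coordinate of `2P` for a point `P` with x-coordinate `x` on `y² = cub x`. -/
def dbl (x : ℚ) : ℚ := (x ^ 2 - 81) ^ 2 / (4 * cub x)

/-- `x` is the x-coordinate of a rational point of `y² = x(x-1)(x-81)` with `y ≠ 0`. -/
def OnE (x : ℚ) : Prop := ∃ y : ℚ, y ≠ 0 ∧ y ^ 2 = cub x

theorem OnE.cub_pos {x : ℚ} (hx : OnE x) : 0 < cub x := by
  obtain ⟨y, hy, h⟩ := hx
  rw [← h]; positivity

theorem OnE.cub_ne_zero {x : ℚ} (hx : OnE x) : cub x ≠ 0 := hx.cub_pos.ne'

theorem OnE.ne_zero {x : ℚ} (hx : OnE x) : x ≠ 0 := by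
  intro h; apply hx.cub_ne_zero; simp [cub, h]

theorem OnE.sub_one_ne_zero {x : ℚ} (hx : OnE x) : x - 1 ≠ 0 := by
  intro h; apply hx.cub_ne_zero; simp [cub, h]

theorem OnE.sub_ne_zero {x : ℚ} (hx : OnE x) : x - 81 ≠ 0 := by
  intro h; apply hx.cub_ne_zero; simp [cub, h]

theorem OnE.pos {x : ℚ} (hx : OnE x) : 0 < x := by
  have h := hx.cub_pos
  unfold cub at h
  by_contra hneg
  rw [not_lt] at hneg
  have h1 : x - 1 < 0 := by linarith
  have h2 : x - 81 < 0 := by linarith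
  have h3 : 0 ≤ (x - 1) * (x - 81) := by nlinarith
  nlinarith

end Fermat.Agent.S51.MW
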