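import Fermat.Agent.S51.MW.Defs

/-!
# S51 / MW / Local: congruence facts for 2-adic and 3-adic units of `ℚ`

FROZEN INTERFACE: the statements below must not change.
Recall `padicValRat p 0 = 0`, hence the explicit `≠ 0` hypotheses.
-/

set_option autoImplicit false

namespace Fermat.Agent.S51.MW

/-- A `p`-adic unit of `ℚ` has numerator and denominator prime to `p`. -/
private theorem loc_unit {p : ℕ} (hp : p.Prime) {q : ℚ} (hq0 : q ≠ 0)
    (hq : padicValRat p q = 0) :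
    ¬ (p : ℤ) ∣ q.num ∧ ¬ (p : ℤ) ∣ (q.den : ℤ) := by
  have : Fact p.Prime := ⟨hp⟩
  have hdef : padicValRat p q = (padicValInt p q.num : ℤ) - (padicValNat p q.den : ℤ) := rfl
  have hnum0 : q.num ≠ 0 := Rat.num_ne_zero.mpr hq0
  have hcop : Nat.gcd q.num.natAbs q.den = 1 := q.reduced
  have h1 : (p : ℤ) ∣ q.num → 1 ≤ padicValInt p q.num := by
    intro h
    have := (padicValInt_dvd_iff (p := p) 1 q.num).mp (by simpa using h)
    rcases this with h0 | h0
    · exact absurd h0 hnum0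
    · exact h0
  have h2 : (p : ℤ) ∣ (q.den : ℤ) → 1 ≤ padicValNat p q.den := by
    intro h
    have h' : p ∣ q.den := Int.natCast_dvd_natCast.mp h
    exact one_le_padicValNat_of_dvd q.den_ne_zero h'
  have h3 : ¬ ((p : ℤ) ∣ q.num ∧ (p : ℤ) ∣ (q.den : ℤ)) := by
    rintro ⟨ha, hb⟩
    have ha' : p ∣ q.num.natAbs := Int.natCast_dvd.mp ha
    have hb' : p ∣ q.den := Int.natCast_dvd_natCast.mp hb
    have := Nat.dvd_gcd ha' hb'
    rw [hcop] at this
    exact hp.one_lt.ne' (Nat.dvd_one.mp this)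
  rw [hdef] at hq
  by_cases hn : (p : ℤ) ∣ q.num
  · have hd : ¬ (p : ℤ) ∣ (q.den : ℤ) := fun hd => h3 ⟨hn, hd⟩
    have hd' : ¬ p ∣ q.den := fun h => hd (Int.natCast_dvd_natCast.mpr h)
    have := padicValNat.eq_zero_of_not_dvd hd'
    have := h1 hn
    omega
  · refine ⟨hn, fun hd => ?_⟩
    have := padicValInt.eq_zero_of_not_dvd hn
    have := h2 hd
    omega

/-- Valuation of a quotient of integers with denominator prime to `p`. -/
private theorem loc_val_div {p : ℕ} (hp : p.Prime) {n d : ℤ} (hn : n ≠ 0) (hd0 : d ≠ 0)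
    (hd : ¬ (p : ℤ) ∣ d) : padicValRat p ((n : ℚ) / (d : ℚ)) = padicValInt p n := by
  have : Fact p.Prime := ⟨hp⟩
  rw [padicValRat.div (by exact_mod_cast hn) (by exact_mod_cast hd0), padicValRat.of_int,
    padicValRat.of_int, padicValInt.eq_zero_of_not_dvd hd]
  simp

private theorem loc_eq_div (q : ℚ) : q = (q.num : ℚ) / ((q.den : ℤ) : ℚ) := by
  have := Rat.num_div_den q
  push_cast
  exact this.symm

/-- Two 2-adic units are congruent modulo 2. -/
theorem two_unit_sub {a b : ℚ} (ha0 : a ≠ 0) (hb0 : b ≠ 0) (ha : padicValRat 2 a = 0)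
    (hb : padicValRat 2 b = 0) (hab : a ≠ b) : 1 ≤ padicValRat 2 (a - b) := by
  obtain ⟨han, had⟩ := loc_unit Nat.prime_two ha0 ha
  obtain ⟨hbn, hbd⟩ := loc_unit Nat.prime_two hb0 hb
  have had0 : (a.den : ℤ) ≠ 0 := by exact_mod_cast a.den_ne_zero
  have hbd0 : (b.den : ℤ) ≠ 0 := by exact_mod_cast b.den_ne_zero
  have had0' : (a.den : ℚ) ≠ 0 := by exact_mod_cast a.den_ne_zero
  have hbd0' : (b.den : ℚ) ≠ 0 := by exact_mod_cast b.den_ne_zero
  have key : a - b = ((a.num * (b.den : ℤ) - b.num * (a.den : ℤ) : ℤ) : ℚ)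
      / (((a.den : ℤ) * (b.den : ℤ) : ℤ) : ℚ) := by
    conv_lhs => rw [loc_eq_div a, loc_eq_div b]
    push_cast
    field_simp
  have hne : a.num * (b.den : ℤ) - b.num * (a.den : ℤ) ≠ 0 := by
    intro h
    apply hab
    have h' : a - b = 0 := by rw [key, h]; simp
    linarith
  have hD0 : (a.den : ℤ) * (b.den : ℤ) ≠ 0 := mul_ne_zero had0 hbd0
  have p2 : Prime ((2 : ℕ) : ℤ) := Nat.prime_iff_prime_int.mp Nat.prime_two
  have hD : ¬ ((2 : ℕ) : ℤ) ∣ (a.den : ℤ) * (b.den : ℤ) := fun h =>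
    (p2.dvd_or_dvd h).elim had hbd
  have hM : ¬ ((2 : ℕ) : ℤ) ∣ a.num * (b.den : ℤ) := fun h =>
    (p2.dvd_or_dvd h).elim han hbd
  have hN : ¬ ((2 : ℕ) : ℤ) ∣ b.num * (a.den : ℤ) := fun h =>
    (p2.dvd_or_dvd h).elim hbn had
  rw [key, loc_val_div Nat.prime_two hne hD0 hD]
  have h2 : ((2 : ℕ) : ℤ) ^ 1 ∣ a.num * (b.den : ℤ) - b.num * (a.den : ℤ) := by
    generalize a.num * (b.den : ℤ) = M at hM ⊢
    generalize b.num * (a.den : ℤ) = N at hN ⊢
    push_cast at hM hN ⊢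
    omega
  rcases (padicValInt_dvd_iff (p := 2) 1 _).mp h2 with h | h
  · exact absurd h hne
  · exact_mod_cast h

/-- The sum of two 2-adic units is even. -/
theorem two_unit_add {a b : ℚ} (ha0 : a ≠ 0) (hb0 : b ≠ 0) (ha : padicValRat 2 a = 0)
    (hb : padicValRat 2 b = 0) (hab : a + b ≠ 0) : 1 ≤ padicValRat 2 (a + b) := by
  have h := two_unit_sub (a := a) (b := -b) ha0 (neg_ne_zero.mpr hb0) ha
    (by rw [padicValRat.neg]; exact hb) (fun h => hab (by rw [h]; ring))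
  rwa [sub_neg_eq_add] at h

/-- The sum of the squares of two 2-adic units has valuation exactly 1. -/
theorem two_unit_sq_add_sq {a b : ℚ} (ha0 : a ≠ 0) (hb0 : b ≠ 0) (ha : padicValRat 2 a = 0)
    (hb : padicValRat 2 b = 0) : padicValRat 2 (a ^ 2 + b ^ 2) = 1 := by
  have h2 : padicValRat 2 (2 : ℚ) = 1 := by
    have := padicValRat.self (p := 2) (by norm_num)
    simpa using this
  have h2ab : padicValRat 2 (-(2 * a * b)) = 1 := by
    rw [padicValRat.neg, padicValRat.mul (mul_ne_zero two_ne_zero ha0) hb0,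
      padicValRat.mul two_ne_zero ha0, h2, ha, hb]
    norm_num
  by_cases hab : a + b = 0
  · have hb' : b = -a := by linarith
    have : a ^ 2 + b ^ 2 = 2 * a ^ 2 := by rw [hb']; ring
    rw [this, padicValRat.mul two_ne_zero (pow_ne_zero 2 ha0), padicValRat.pow, h2, ha]
    norm_num
  · have h1 := two_unit_add ha0 hb0 ha hb hab
    have hpos : a ^ 2 + b ^ 2 ≠ 0 := by positivity
    have e : a ^ 2 + b ^ 2 = -(2 * a * b) + (a + b) ^ 2 := by ring
    have hsq : padicValRat 2 ((a + b) ^ 2) = 2 * padicValRat 2 (a + b) := by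
      rw [padicValRat.pow]; norm_num
    rw [e, padicValRat.add_eq_of_lt (by rw [← e]; exact hpos)
      (neg_ne_zero.mpr (mul_ne_zero (mul_ne_zero two_ne_zero ha0) hb0))
      (pow_ne_zero 2 hab) (by rw [h2ab, hsq]; omega), h2ab]

/-- The square of a 2-adic unit is `≡ 1 mod 8`. -/
theorem two_unit_sq_sub_one {r : ℚ} (hr0 : r ≠ 0) (hr : padicValRat 2 r = 0)
    (hr1 : r ^ 2 ≠ 1) : 3 ≤ padicValRat 2 (r ^ 2 - 1) := by
  have h2 : padicValRat 2 (2 : ℚ) = 1 := by
    have := padicValRat.self (p := 2) (by norm_num)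
    simpa using this
  have hm : r - 1 ≠ 0 := by
    intro h
    apply hr1
    have : r = 1 := by linarith
    rw [this]; norm_num
  have hp : r + 1 ≠ 0 := by
    intro h
    apply hr1
    have : r = -1 := by linarith
    rw [this]; norm_num
  have v1 : 1 ≤ padicValRat 2 (r - 1) :=
    two_unit_sub hr0 one_ne_zero hr padicValRat.one (fun h => hm (by rw [h]; ring))
  set c : ℚ := (r - 1) / 2 with hc
  have hc0 : c ≠ 0 := div_ne_zero hm two_ne_zero
  have hc1 : c + 1 ≠ 0 := by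
    intro h
    apply hp
    rw [hc] at h
    field_simp at h
    linarith
  have vc : padicValRat 2 c = padicValRat 2 (r - 1) - 1 := by
    rw [hc, padicValRat.div hm two_ne_zero, h2]
  have e : r ^ 2 - 1 = 2 * 2 * c * (c + 1) := by
    rw [hc]; field_simp; ring
  have hv : 1 ≤ padicValRat 2 c + padicValRat 2 (c + 1) := by
    by_cases hcz : padicValRat 2 c = 0
    · have := two_unit_add hc0 one_ne_zero hcz padicValRat.one hc1
      omega
    · have hc_pos : 1 ≤ padicValRat 2 c := by omega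
      have h3 : 0 ≤ padicValRat 2 (c + 1) := by
        have := padicValRat.min_le_padicValRat_add (p := 2) (q := c) (r := 1) hc1
        rw [padicValRat.one] at this
        have h4 : (0 : ℤ) ≤ min (padicValRat 2 c) 0 := by
          rw [min_eq_right (by omega)]
        omega
      omega
  rw [e, padicValRat.mul (mul_ne_zero (mul_ne_zero two_ne_zero two_ne_zero) hc0) hc1,
    padicValRat.mul (mul_ne_zero two_ne_zero two_ne_zero) hc0,
    padicValRat.mul two_ne_zero two_ne_zero, h2]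
  omega

/-- `-1` is not a square modulo 3: the sum of the squares of two 3-adic units is a 3-adic unit. -/
theorem three_unit_sq_add_sq {a b : ℚ} (ha0 : a ≠ 0) (hb0 : b ≠ 0) (ha : padicValRat 3 a = 0)
    (hb : padicValRat 3 b = 0) : padicValRat 3 (a ^ 2 + b ^ 2) = 0 := by
  obtain ⟨han, had⟩ := loc_unit Nat.prime_three ha0 ha
  obtain ⟨hbn, hbd⟩ := loc_unit Nat.prime_three hb0 hb
  have had0 : (a.den : ℤ) ≠ 0 := by exact_mod_cast a.den_ne_zero
  have hbd0 : (b.den : ℤ) ≠ 0 := by exact_mod_cast b.den_ne_zero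
  have had0' : (a.den : ℚ) ≠ 0 := by exact_mod_cast a.den_ne_zero
  have hbd0' : (b.den : ℚ) ≠ 0 := by exact_mod_cast b.den_ne_zero
  have key : a ^ 2 + b ^ 2 =
      (((a.num * (b.den : ℤ)) ^ 2 + (b.num * (a.den : ℤ)) ^ 2 : ℤ) : ℚ)
      / ((((a.den : ℤ) * (b.den : ℤ)) ^ 2 : ℤ) : ℚ) := by
    conv_lhs => rw [loc_eq_div a, loc_eq_div b]
    push_cast
    field_simp
  have hpos : a ^ 2 + b ^ 2 ≠ 0 := by positivity
  have hD0 : ((a.den : ℤ) * (b.den : ℤ)) ^ 2 ≠ 0 := pow_ne_zero 2 (mul_ne_zero had0 hbd0)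
  have hne : (a.num * (b.den : ℤ)) ^ 2 + (b.num * (a.den : ℤ)) ^ 2 ≠ 0 := by
    intro h
    apply hpos
    rw [key, h]; simp
  have p3 : Prime ((3 : ℕ) : ℤ) := Nat.prime_iff_prime_int.mp Nat.prime_three
  have hM : ¬ ((3 : ℕ) : ℤ) ∣ a.num * (b.den : ℤ) := fun h =>
    (p3.dvd_or_dvd h).elim han hbd
  have hN : ¬ ((3 : ℕ) : ℤ) ∣ b.num * (a.den : ℤ) := fun h =>
    (p3.dvd_or_dvd h).elim hbn had
  have hD : ¬ ((3 : ℕ) : ℤ) ∣ ((a.den : ℤ) * (b.den : ℤ)) ^ 2 := fun h =>
    (p3.dvd_or_dvd (p3.dvd_of_dvd_pow h)).elim had hbd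
  rw [key, loc_val_div Nat.prime_three hne hD0 hD]
  have : ¬ ((3 : ℕ) : ℤ) ∣ (a.num * (b.den : ℤ)) ^ 2 + (b.num * (a.den : ℤ)) ^ 2 := by
    generalize a.num * (b.den : ℤ) = M at hM ⊢
    generalize b.num * (a.den : ℤ) = N at hN ⊢
    push_cast at hM hN ⊢
    intro h
    have hM' : M % 3 = 1 ∨ M % 3 = 2 := by omega
    have hN' : N % 3 = 1 ∨ N % 3 = 2 := by omega
    have h3 : (M ^ 2 + N ^ 2) % 3 = 0 := by omega
    rcases hM' with hM' | hM' <;> rcases hN' with hN' | hN' <;>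
      simp [pow_two, Int.add_emod, Int.mul_emod, hM', hN'] at h3
  rw [padicValInt.eq_zero_of_not_dvd this]
  simp

end Fermat.Agent.S51.MW
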