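import Fermat.Agent.S51.MW.Defs

/-!
# S51 / MW / Square: a rational number all of whose valuations are even is `±` a square

FROZEN INTERFACE: the statements below must not change.
-/

set_option autoImplicit false

namespace Fermat.Agent.S51.MW

/-- A nonzero natural number all of whose valuations are even is a perfect square. -/
private theorem sq_nat {n : ℕ} (hn : n ≠ 0)
    (h : ∀ p : ℕ, p.Prime → Even (padicValNat p n)) : ∃ m : ℕ, n = m ^ 2 := by
  obtain ⟨a, b, hab, hsq⟩ := Nat.sq_mul_squarefree n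
  have ha : a ≠ 0 := by
    rintro rfl
    exact hn (by simpa using hab.symm)
  have hb : b ≠ 0 := by
    rintro rfl
    exact hn (by simpa using hab.symm)
  have ha1 : a = 1 := by
    by_contra hne
    obtain ⟨p, hp, hpa⟩ := Nat.exists_prime_and_dvd hne
    have : Fact p.Prime := ⟨hp⟩
    have h1 : padicValNat p a = 1 := by
      have hle : padicValNat p a ≤ 1 := by
        by_contra hlt
        have h2 : 2 ≤ padicValNat p a := by omega
        have h3 : p ^ 2 ∣ a := (padicValNat_dvd_iff_le ha).2 h2
        have h4 := hsq p (by rwa [sq] at h3)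
        exact hp.one_lt.ne' (Nat.isUnit_iff.1 h4)
      have hge : 1 ≤ padicValNat p a := one_le_padicValNat_of_dvd ha hpa
      omega
    have h2 := h p hp
    rw [← hab, padicValNat.mul (pow_ne_zero 2 hb) ha, padicValNat.pow b 2, h1] at h2
    rcases h2 with ⟨k, hk⟩
    omega
  exact ⟨b, by rw [← hab, ha1, mul_one]⟩

/-- Evenness of the valuations of a nonzero rational passes to numerator and denominator. -/
private theorem sq_num_den {q : ℚ} {p : ℕ} (hp : p.Prime)
    (h : Even (padicValRat p q)) :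
    Even (padicValNat p q.num.natAbs) ∧ Even (padicValNat p q.den) := by
  rw [padicValRat_def, padicValInt] at h
  by_cases hd : p ∣ q.den
  · have hn : ¬ p ∣ q.num.natAbs := by
      intro hn
      have h1 : p ∣ Nat.gcd q.num.natAbs q.den := Nat.dvd_gcd hn hd
      rw [q.reduced] at h1
      exact hp.one_lt.ne' (Nat.dvd_one.1 h1)
    rw [padicValNat.eq_zero_of_not_dvd hn] at h ⊢
    refine ⟨Even.zero, ?_⟩
    rcases h with ⟨k, hk⟩
    exact ⟨(-k).toNat, by omega⟩
  · rw [padicValNat.eq_zero_of_not_dvd hd] at h ⊢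
    refine ⟨?_, Even.zero⟩
    rcases h with ⟨k, hk⟩
    exact ⟨k.toNat, by omega⟩

/-- A nonzero rational all of whose `p`-adic valuations are even is `±` a square. -/
theorem exists_sq_of_even_val {q : ℚ} (hq : q ≠ 0)
    (h : ∀ p : ℕ, p.Prime → Even (padicValRat p q)) : ∃ r : ℚ, q = r ^ 2 ∨ q = -r ^ 2 := by
  have hnum : q.num.natAbs ≠ 0 := Int.natAbs_ne_zero.2 (Rat.num_ne_zero.2 hq)
  obtain ⟨m, hm⟩ := sq_nat hnum (fun p hp => (sq_num_den hp (h p hp)).1)
  obtain ⟨n, hn⟩ := sq_nat q.den_ne_zero (fun p hp => (sq_num_den hp (h p hp)).2)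
  have hn0 : (n : ℚ) ≠ 0 := by
    have : n ≠ 0 := by
      rintro rfl
      exact q.den_ne_zero (by simp at hn)
    exact_mod_cast this
  have hden : (q.den : ℚ) = (n : ℚ) ^ 2 := by exact_mod_cast hn
  refine ⟨(m : ℚ) / n, ?_⟩
  rcases Int.natAbs_eq q.num with h1 | h1
  · left
    have hnumq : (q.num : ℚ) = (m : ℚ) ^ 2 := by
      rw [h1, hm]; push_cast; ring
    rw [← Rat.num_div_den q, hnumq, hden]
    field_simp
  · right
    have hnumq : (q.num : ℚ) = -(m : ℚ) ^ 2 := by
      rw [h1, hm]; push_cast; ring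
    rw [← Rat.num_div_den q, hnumq, hden]
    field_simp

/-- A positive rational all of whose `p`-adic valuations are even is a square. -/
theorem exists_sq_of_pos_of_even_val {q : ℚ} (hq : 0 < q)
    (h : ∀ p : ℕ, p.Prime → Even (padicValRat p q)) : ∃ r : ℚ, q = r ^ 2 := by
  obtain ⟨r, hr | hr⟩ := exists_sq_of_even_val hq.ne' h
  · exact ⟨r, hr⟩
  · exfalso
    have : 0 ≤ r ^ 2 := sq_nonneg r
    linarith

/-- A nonzero rational whose `p`-adic valuations are even for all `p ≠ 5` is `±1` or `±5` times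
a square. -/
theorem exists_class_of_even_val {q : ℚ} (hq : q ≠ 0)
    (h : ∀ p : ℕ, p.Prime → p ≠ 5 → Even (padicValRat p q)) :
    ∃ d r : ℚ, (d = 1 ∨ d = -1 ∨ d = 5 ∨ d = -5) ∧ q = d * r ^ 2 := by
  have h5p : Nat.Prime 5 := by norm_num
  by_cases h5 : Even (padicValRat 5 q)
  · have hall : ∀ p : ℕ, p.Prime → Even (padicValRat p q) := by
      intro p hp
      by_cases hp5 : p = 5
      · subst hp5; exact h5
      · exact h p hp hp5
    obtain ⟨r, hr | hr⟩ := exists_sq_of_even_val hq hall
    · exact ⟨1, r, Or.inl rfl, by rw [hr]; ring⟩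
    · exact ⟨-1, r, Or.inr (Or.inl rfl), by rw [hr]; ring⟩
  · have h50 : (5 : ℚ) ≠ 0 := by norm_num
    have hq5 : q / 5 ≠ 0 := div_ne_zero hq h50
    have hall : ∀ p : ℕ, p.Prime → Even (padicValRat p (q / 5)) := by
      intro p hp
      have : Fact p.Prime := ⟨hp⟩
      have : Fact (Nat.Prime 5) := ⟨h5p⟩
      rw [padicValRat.div hq h50]
      have hcast : padicValRat p (5 : ℚ) = (padicValNat p 5 : ℤ) := by
        exact_mod_cast (padicValRat.of_nat (p := p) (n := 5))
      rw [hcast]
      by_cases hp5 : p = 5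
      · subst hp5
        have : padicValNat 5 5 = 1 := padicValNat.self (by norm_num)
        rw [this]
        rcases Int.even_or_odd (padicValRat 5 q) with he | ho
        · exact absurd he h5
        · rcases ho with ⟨k, hk⟩
          exact ⟨k, by push_cast; omega⟩
      · have : padicValNat p 5 = 0 := padicValNat_primes hp5
        rw [this]
        simpa using h p hp hp5
    obtain ⟨r, hr | hr⟩ := exists_sq_of_even_val hq5 hall
    · refine ⟨5, r, Or.inr (Or.inr (Or.inl rfl)), ?_⟩
      rw [← hr]; field_simp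
    · refine ⟨-5, r, Or.inr (Or.inr (Or.inr rfl)), ?_⟩
      have : q = 5 * (q / 5) := by field_simp
      rw [this, hr]; ring

end Fermat.Agent.S51.MW
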